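/-
S12 programme, brick VELU-C (helper51), part 1: the ALGEBRAIC Velu curve is the curve of the
superlattice.  If `curve L = C • W` (uniformisation of `W` over `ℂ`), `t₀` has exact order `p`
(odd) modulo `L`, `L' = L + ℤ t₀` and `Q ∈ W(ℂ)` is the image of `t₀`, then

  `curve L' = C • veluCurve W Q p`      (same change of variables `C`),

hence `Δ(veluCurve W Q p) ≠ 0` and `Δ(veluCurve W Q p) · ∏_{0<k<p} ψ₂(k•Q)⁴ = Δ(W)^p`.
Inputs: `Unif91.g₂_sup`, `Unif91.g₃_sup` (analytic Velu formulas), `EF86.delta_quot_uncond`.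
-/
import Fermat.Agent.MAZ.Unif18.Assembly
import Fermat.Agent.MAZ.Unif91.VeluG3
import Fermat.Agent.S12P.VeluDef51.Defs

set_option autoImplicit false

open scoped PeriodPair

noncomputable section

namespace Fermat.Agent.S12P.VeluC51

open PeriodPair WeierstrassCurve
open Fermat.Agent.MAZ Fermat.Agent.MAZ.Unif18 Fermat.Agent.MAZ.EF86
open Fermat.Agent.S05.Transport Fermat.Agent.S12P.VeluDef51
open Fermat.Agent.MAZ.ModInv (xco yco xco_some yco_some)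

/-! ### Pure algebra on affine points -/

section Alg

variable {F : Type*} [Field F] (V : WeierstrassCurve F)

/-- `2 gx = t_R - a₁ ψ₂`. -/
theorem two_gx (R : V.toAffine.Point) (hR : R ≠ 0) :
    2 * gx V R = tq V R - V.a₁ * ModInv.psi2 V R := by
  cases R with
  | zero => exact absurd rfl hR
  | some x y h =>
    simp only [gx, tq, ModInv.psi2_some, xco_some, yco_some, WeierstrassCurve.b₂,
      WeierstrassCurve.b₄]
    ring

/-- `2 (x gx + y ψ₂) = x t_R + ψ₂² - (2 a₁ x + a₃) ψ₂`. -/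
theorem two_xgx_add_ypsi (R : V.toAffine.Point) (hR : R ≠ 0) :
    2 * (xco V R * gx V R + yco V R * ModInv.psi2 V R) =
      xco V R * tq V R + ModInv.psi2 V R ^ 2 -
        (2 * V.a₁ * xco V R + V.a₃) * ModInv.psi2 V R := by
  cases R with
  | zero => exact absurd rfl hR
  | some x y h =>
    simp only [gx, tq, ModInv.psi2_some, xco_some, yco_some, WeierstrassCurve.b₂,
      WeierstrassCurve.b₄]
    ring

end Alg

/-- A sum over `0 < k < p` of a function odd under `k ↦ p - k` vanishes. -/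
theorem sum_Ico_antisymm {p : ℕ} (f : ℕ → ℂ)
    (hf : ∀ k, 1 ≤ k → k < p → f (p - k) = -f k) : ∑ k ∈ Finset.Ico 1 p, f k = 0 := by
  have hr := Finset.sum_Ico_reflect f 1 (m := p) (n := p) (Nat.le_succ p)
  have e1 : p + 1 - p = 1 := by omega
  have e2 : p + 1 - 1 = p := by omega
  rw [e1, e2] at hr
  have h2 : ∑ k ∈ Finset.Ico 1 p, f (p - k) = -∑ k ∈ Finset.Ico 1 p, f k := by
    rw [← Finset.sum_neg_distrib]
    refine Finset.sum_congr rfl fun k hk => ?_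
    rw [Finset.mem_Ico] at hk
    exact hf k hk.1 hk.2
  rw [h2] at hr
  have : (2 : ℂ) * ∑ k ∈ Finset.Ico 1 p, f k = 0 := by linear_combination -hr
  rcases mul_eq_zero.mp this with h | h
  · exact absurd h two_ne_zero
  · exact h

/-! ### The uniformisation dictionary -/

section Dict

variable {W : WeierstrassCurve ℂ} {C : VariableChange ℂ} {L : PeriodPair}

/-- The five coefficient relations contained in `curve L = C • W`. -/
theorem coeff_relations (h : curve L = C • W) :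
    C.s = -W.a₁ / 2 ∧ C.r = -W.b₂ / 12 ∧ C.t = -(W.a₃ + C.r * W.a₁) / 2 ∧
    -L.g₂ / 4 * (C.u : ℂ) ^ 4 = W.a₄ - C.s * W.a₃ + 2 * C.r * W.a₂ - (C.t + C.r * C.s) * W.a₁
      + 3 * C.r ^ 2 - 2 * C.s * C.t ∧
    -L.g₃ / 4 * (C.u : ℂ) ^ 6 = W.a₆ + C.r * W.a₄ + C.r ^ 2 * W.a₂ + C.r ^ 3 - C.t * W.a₃
      - C.t ^ 2 - C.r * C.t * W.a₁ := by
  have hu : (C.u : ℂ) ≠ 0 := C.u.ne_zero
  have h1 : (curve L).a₁ = (C • W).a₁ := by rw [h]
  have h2 : (curve L).a₂ = (C • W).a₂ := by rw [h]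
  have h3 : (curve L).a₃ = (C • W).a₃ := by rw [h]
  have h4 : (curve L).a₄ = (C • W).a₄ := by rw [h]
  have h6 : (curve L).a₆ = (C • W).a₆ := by rw [h]
  rw [curve_a₁, variableChange_a₁] at h1
  rw [curve_a₂, variableChange_a₂] at h2
  rw [curve_a₃, variableChange_a₃] at h3
  rw [curve_a₄, variableChange_a₄] at h4
  rw [curve_a₆, variableChange_a₆] at h6
  simp only [Units.val_inv_eq_inv_val] at h1 h2 h3 h4 h6
  have e1 : W.a₁ + 2 * C.s = 0 := by
    rcases mul_eq_zero.mp h1.symm with h' | h'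
    · exact absurd h' (by simp)
    · exact h'
  have e2 : W.a₂ - C.s * W.a₁ + 3 * C.r - C.s ^ 2 = 0 := by
    rcases mul_eq_zero.mp h2.symm with h' | h'
    · exact absurd h' (by simp)
    · exact h'
  have e3 : W.a₃ + C.r * W.a₁ + 2 * C.t = 0 := by
    rcases mul_eq_zero.mp h3.symm with h' | h'
    · exact absurd h' (by simp)
    · exact h'
  have hs : C.s = -W.a₁ / 2 := by linear_combination e1 / 2
  refine ⟨hs, ?_, ?_, ?_, ?_⟩
  · simp only [WeierstrassCurve.b₂]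
    rw [hs] at e2
    linear_combination e2 / 3
  · linear_combination e3 / 2
  · field_simp at h4
    linear_combination h4 / 4
  · field_simp at h6
    linear_combination h6 / 4

variable (h : curve L = C • W)

theorem xco_pointEquiv_toPoint {z : ℂ} (hz : z ∉ L.lattice) :
    xco W (pointEquiv h (toPoint L z)) = (C.u : ℂ) ^ 2 * ℘[L] z + C.r := by
  rw [toPoint_of_notMem L hz, pointEquiv_some, xco_some]
  rfl

theorem yco_pointEquiv_toPoint {z : ℂ} (hz : z ∉ L.lattice) :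
    yco W (pointEquiv h (toPoint L z)) =
      (C.u : ℂ) ^ 3 * (℘'[L] z / 2) + (C.u : ℂ) ^ 2 * C.s * ℘[L] z + C.t := by
  rw [toPoint_of_notMem L hz, pointEquiv_some, yco_some]
  rfl

theorem pointEquiv_toPoint_ne_zero {z : ℂ} (hz : z ∉ L.lattice) :
    pointEquiv h (toPoint L z) ≠ 0 := by
  rw [toPoint_of_notMem L hz, pointEquiv_some]
  exact Affine.Point.some_ne_zero _

theorem psi2_pointEquiv_toPoint' {z : ℂ} (hz : z ∉ L.lattice) :
    ModInv.psi2 W (pointEquiv h (toPoint L z)) = (C.u : ℂ) ^ 3 * ℘'[L] z := by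
  obtain ⟨hs, hr, ht, -, -⟩ := coeff_relations h
  rw [ModInv.psi2_eq W _ (pointEquiv_toPoint_ne_zero h hz), xco_pointEquiv_toPoint h hz,
    yco_pointEquiv_toPoint h hz, ht, hs]
  ring

theorem tq_pointEquiv_toPoint {z : ℂ} (hz : z ∉ L.lattice) :
    tq W (pointEquiv h (toPoint L z)) = (C.u : ℂ) ^ 4 * (6 * ℘[L] z ^ 2 - L.g₂ / 2) := by
  obtain ⟨hs, hr, ht, h4, -⟩ := coeff_relations h
  rw [tq, xco_pointEquiv_toPoint h hz]
  rw [ht, hs] at h4
  have hb2 : W.b₂ = -12 * C.r := by rw [hr]; ring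
  have hb4 : W.b₄ = 2 * W.a₄ + W.a₁ * W.a₃ := rfl
  have hb2' : W.b₂ = W.a₁ ^ 2 + 4 * W.a₂ := rfl
  rw [hb4]
  have key : 2 * W.a₄ + W.a₁ * W.a₃ = -L.g₂ / 2 * (C.u : ℂ) ^ 4 - 6 * C.r ^ 2 - W.b₂ * C.r := by
    rw [hb2']
    linear_combination (-2 : ℂ) * h4
  rw [key, hb2]
  ring

end Dict

/-! ### The sums over the kernel -/

section Main

variable {W : WeierstrassCurve ℂ} {C : VariableChange ℂ} {L L' : PeriodPair}
  (h : curve L = C • W) {p : ℕ} {t₀ : ℂ} (hcyc : IsCyclicSup L L' p t₀)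

include hcyc in
theorem mul_notMem {k : ℕ} (hk : k ∈ Finset.Ico 1 p) : (k : ℂ) * t₀ ∉ L.lattice := by
  rw [Finset.mem_Ico] at hk
  exact hcyc.order k hk.1 hk.2

include hcyc in
/-- `∑_{0<k<p} ψ₂(k•Q) = 0`. -/
theorem sum_dwp_eq_zero : ∑ k ∈ Finset.Ico 1 p, ℘'[L] ((k : ℂ) * t₀) = 0 := by
  refine sum_Ico_antisymm (fun k => ℘'[L] ((k : ℂ) * t₀)) fun k _ hk => ?_
  exact hcyc.deriv_reflect hk.le

include hcyc in
/-- `∑_{0<k<p} ℘(k t₀) ℘'(k t₀) = 0`. -/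
theorem sum_wp_mul_dwp_eq_zero :
    ∑ k ∈ Finset.Ico 1 p, ℘[L] ((k : ℂ) * t₀) * ℘'[L] ((k : ℂ) * t₀) = 0 := by
  refine sum_Ico_antisymm (fun k => ℘[L] ((k : ℂ) * t₀) * ℘'[L] ((k : ℂ) * t₀)) fun k _ hk => ?_
  show ℘[L] (((p - k : ℕ) : ℂ) * t₀) * ℘'[L] (((p - k : ℕ) : ℂ) * t₀) = _
  rw [hcyc.deriv_reflect hk.le, hcyc.weierstrassP_reflect' hk.le]
  ring

include hcyc in
/-- `2 T = u⁴ ∑_{0<k<p} (6 ℘(k t₀)² - g₂/2)`. -/
theorem two_veluT :
    2 * veluT W (pointEquiv h (toPoint L t₀)) p =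
      (C.u : ℂ) ^ 4 * ∑ k ∈ Finset.Ico 1 p, (6 * ℘[L] ((k : ℂ) * t₀) ^ 2 - L.g₂ / 2) := by
  rw [veluT, Finset.mul_sum, Finset.mul_sum]
  have hterm : ∀ k ∈ Finset.Ico 1 p, 2 * gx W (k • pointEquiv h (toPoint L t₀)) =
      (C.u : ℂ) ^ 4 * (6 * ℘[L] ((k : ℂ) * t₀) ^ 2 - L.g₂ / 2) -
        W.a₁ * (C.u : ℂ) ^ 3 * ℘'[L] ((k : ℂ) * t₀) := by
    intro k hk
    have hz := mul_notMem hcyc hk
    rw [nsmul_eq_pointEquiv_toPoint, two_gx W _ (pointEquiv_toPoint_ne_zero h hz),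
      tq_pointEquiv_toPoint h hz, psi2_pointEquiv_toPoint' h hz]
    ring
  rw [Finset.sum_congr rfl hterm, Finset.sum_sub_distrib, ← Finset.mul_sum (a := W.a₁ * (C.u : ℂ) ^ 3),
    sum_dwp_eq_zero hcyc, mul_zero, sub_zero]

include hcyc in
/-- `2 w - 2 r T = u⁶ ∑_{0<k<p} (10 ℘³ - (3/2) g₂ ℘ - g₃)(k t₀)`. -/
theorem two_veluW :
    2 * veluW W (pointEquiv h (toPoint L t₀)) p -
        2 * C.r * veluT W (pointEquiv h (toPoint L t₀)) p =
      (C.u : ℂ) ^ 6 * ∑ k ∈ Finset.Ico 1 p,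
        (10 * ℘[L] ((k : ℂ) * t₀) ^ 3 - 3 / 2 * L.g₂ * ℘[L] ((k : ℂ) * t₀) - L.g₃) := by
  have hT := two_veluT h hcyc
  have e : 2 * C.r * veluT W (pointEquiv h (toPoint L t₀)) p =
      C.r * (2 * veluT W (pointEquiv h (toPoint L t₀)) p) := by ring
  rw [e, hT, veluW, Finset.mul_sum (a := (2 : ℂ))]
  obtain ⟨hs, hr, ht, -, -⟩ := coeff_relations h
  have hterm : ∀ k ∈ Finset.Ico 1 p,
      2 * (xco W (k • pointEquiv h (toPoint L t₀)) * gx W (k • pointEquiv h (toPoint L t₀)) +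
        yco W (k • pointEquiv h (toPoint L t₀)) *
          ModInv.psi2 W (k • pointEquiv h (toPoint L t₀))) =
      ((C.u : ℂ) ^ 6 * (10 * ℘[L] ((k : ℂ) * t₀) ^ 3 - 3 / 2 * L.g₂ * ℘[L] ((k : ℂ) * t₀) - L.g₃)
        + C.r * ((C.u : ℂ) ^ 4 * (6 * ℘[L] ((k : ℂ) * t₀) ^ 2 - L.g₂ / 2))) -
      ((2 * W.a₁ * (C.u : ℂ) ^ 5) * (℘[L] ((k : ℂ) * t₀) * ℘'[L] ((k : ℂ) * t₀)) +
        ((2 * W.a₁ * C.r + W.a₃) * (C.u : ℂ) ^ 3) * ℘'[L] ((k : ℂ) * t₀)) := by
    intro k hk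
    have hz := mul_notMem hcyc hk
    have hsq := L.derivWeierstrassP_sq _ hz
    rw [nsmul_eq_pointEquiv_toPoint, two_xgx_add_ypsi W _ (pointEquiv_toPoint_ne_zero h hz),
      tq_pointEquiv_toPoint h hz, psi2_pointEquiv_toPoint' h hz, xco_pointEquiv_toPoint h hz]
    linear_combination (C.u : ℂ) ^ 6 * hsq
  rw [Finset.sum_congr rfl hterm, Finset.sum_sub_distrib, Finset.sum_add_distrib,
    Finset.sum_add_distrib, ← Finset.mul_sum, ← Finset.mul_sum, ← Finset.mul_sum, ← Finset.mul_sum,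
    ← Finset.mul_sum, sum_dwp_eq_zero hcyc, sum_wp_mul_dwp_eq_zero hcyc]
  ring

include hcyc in
theorem t₀_notMem (hp : p.Prime) : t₀ ∉ L.lattice := by
  have := hcyc.order 1 Nat.one_pos hp.one_lt
  simpa using this

include hcyc in
/-- **VELU-C, the curve.** The algebraic Velu curve of `(W, Q)` is uniformised by the superlattice
`L' = L + ℤ t₀` through the SAME change of variables. -/
theorem curve_sup_eq (hp : p.Prime)
    (hL' : L'.lattice = L.lattice ⊔ Submodule.span ℤ {t₀}) :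
    curve L' = C • veluCurve W (pointEquiv h (toPoint L t₀)) p := by
  have hu : (C.u : ℂ) ≠ 0 := C.u.ne_zero
  have ht := t₀_notMem hcyc hp
  have hg2 := Unif91.g₂_sup hp ht hcyc.pmul L' hL'
  have hg3 := Unif91.g₃_sup hp ht hcyc.pmul L' hL'
  have hT := two_veluT h hcyc
  have hW := two_veluW h hcyc
  obtain ⟨hs, hr, ht', h4, h6⟩ := coeff_relations h
  have hp1 : ((p - 1 : ℕ) : ℂ) = (p : ℂ) - 1 := by
    rw [Nat.cast_sub hp.one_le]
    simp
  -- the sums in closed form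
  have hT' : 2 * veluT W (pointEquiv h (toPoint L t₀)) p =
      (C.u : ℂ) ^ 4 * (6 * ∑ k ∈ Finset.Ico 1 p, ℘[L] ((k : ℂ) * t₀) ^ 2
        - ((p : ℂ) - 1) * (L.g₂ / 2)) := by
    rw [hT, Finset.sum_sub_distrib, Finset.sum_const, Nat.card_Ico, ← Finset.mul_sum,
      nsmul_eq_mul, hp1]
  have hW' : 2 * veluW W (pointEquiv h (toPoint L t₀)) p -
        2 * C.r * veluT W (pointEquiv h (toPoint L t₀)) p =
      (C.u : ℂ) ^ 6 * (10 * ∑ k ∈ Finset.Ico 1 p, ℘[L] ((k : ℂ) * t₀) ^ 3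
        - 3 / 2 * L.g₂ * ∑ k ∈ Finset.Ico 1 p, ℘[L] ((k : ℂ) * t₀) - ((p : ℂ) - 1) * L.g₃) := by
    rw [hW, Finset.sum_sub_distrib, Finset.sum_sub_distrib, Finset.sum_const, Nat.card_Ico,
      ← Finset.mul_sum, ← Finset.mul_sum, nsmul_eq_mul, hp1]
  have hb2 : W.b₂ = -12 * C.r := by rw [hr]; ring
  clear hT hW
  generalize (∑ k ∈ Finset.Ico 1 p, ℘[L] ((k : ℂ) * t₀)) = S1 at hg3 hW'
  generalize (∑ k ∈ Finset.Ico 1 p, ℘[L] ((k : ℂ) * t₀) ^ 2) = S2 at hg2 hT'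
  generalize (∑ k ∈ Finset.Ico 1 p, ℘[L] ((k : ℂ) * t₀) ^ 3) = S3 at hg3 hW'
  obtain ⟨T, hTdef⟩ : ∃ T, veluT W (pointEquiv h (toPoint L t₀)) p = T := ⟨_, rfl⟩
  obtain ⟨w, hwdef⟩ : ∃ w, veluW W (pointEquiv h (toPoint L t₀)) p = w := ⟨_, rfl⟩
  rw [hTdef] at hT' hW'
  rw [hwdef] at hW'
  ext
  · rw [curve_a₁, variableChange_a₁]
    simp only [veluCurve_a₁]
    rw [hs]
    ring
  · rw [curve_a₂, variableChange_a₂]
    simp only [veluCurve_a₁, veluCurve_a₂]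
    rw [hs, hr]
    simp only [WeierstrassCurve.b₂]
    ring
  · rw [curve_a₃, variableChange_a₃]
    simp only [veluCurve_a₁, veluCurve_a₃]
    rw [ht']
    ring
  · rw [curve_a₄, variableChange_a₄]
    simp only [veluCurve_a₁, veluCurve_a₂, veluCurve_a₃, veluCurve_a₄, Units.val_inv_eq_inv_val,
      hTdef]
    rw [hg2]
    field_simp
    linear_combination (4 : ℂ) * h4 + 10 * hT'
  · rw [curve_a₆, variableChange_a₆]
    simp only [veluCurve_a₁, veluCurve_a₂, veluCurve_a₃, veluCurve_a₄, veluCurve_a₆,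
      Units.val_inv_eq_inv_val, hTdef, hwdef]
    rw [hg3, hb2]
    field_simp
    linear_combination (4 : ℂ) * h6 + 14 * hW'

include hcyc in
/-- `IsCyclicSup` gives the superlattice as a supremum. -/
theorem lattice_eq_sup : L'.lattice = L.lattice ⊔ Submodule.span ℤ {t₀} := by
  apply le_antisymm
  · intro l' hl'
    obtain ⟨k, -, hk⟩ := hcyc.cover l' hl'
    have e : l' = (l' - (k : ℂ) * t₀) + (k : ℤ) • t₀ := by
      rw [zsmul_eq_mul]; push_cast; ring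
    rw [e]
    exact Submodule.add_mem_sup hk (Submodule.smul_mem _ _ (Submodule.mem_span_singleton_self t₀))
  · refine sup_le hcyc.le ?_
    rw [Submodule.span_le]
    intro x hx
    rw [Set.mem_singleton_iff] at hx
    rw [hx]
    exact hcyc.mem

include hcyc in
/-- `Δ` of the Velu curve is `u¹² Δ(L')`, in particular non-zero. -/
theorem veluCurve_Δ (hp : p.Prime) :
    (veluCurve W (pointEquiv h (toPoint L t₀)) p).Δ =
      (C.u : ℂ) ^ 12 * (L'.g₂ ^ 3 - 27 * L'.g₃ ^ 2) :=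
  Δ_eq_of_curve_eq (curve_sup_eq h hcyc hp (lattice_eq_sup hcyc))

include hcyc in
theorem veluCurve_Δ_ne_zero (hp : p.Prime) :
    (veluCurve W (pointEquiv h (toPoint L t₀)) p).Δ ≠ 0 := by
  rw [veluCurve_Δ h hcyc hp]
  exact mul_ne_zero (pow_ne_zero _ C.u.ne_zero) (disc_ne_zero L')

include hcyc in
/-- **DELTA-QUOT for the algebraic Velu curve**: `Δ(W/⟨Q⟩) ∏_{0<k<p} ψ₂(k•Q)⁴ = Δ(W)^p`. -/
theorem veluCurve_Δ_mul_psiProd (hp : p.Prime) {m : ℕ} (hpm : p = 2 * m + 1) :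
    (veluCurve W (pointEquiv h (toPoint L t₀)) p).Δ *
        ModInv.psiProd W (pointEquiv h (toPoint L t₀)) p = W.Δ ^ p := by
  have hdq := hcyc.delta_quot_uncond hpm
  have hprod : ModInv.psiProd W (pointEquiv h (toPoint L t₀)) p =
      ((C.u : ℂ) ^ 12) ^ (p - 1) * ∏ k ∈ Finset.Ico 1 p, ℘'[L] ((k : ℂ) * t₀) ^ 4 := by
    rw [ModInv.psiProd]
    have : ∀ k ∈ Finset.Ico 1 p, ModInv.psi2 W (k • pointEquiv h (toPoint L t₀)) ^ 4 =
        (C.u : ℂ) ^ 12 * ℘'[L] ((k : ℂ) * t₀) ^ 4 := by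
      intro k hk
      rw [nsmul_eq_pointEquiv_toPoint, psi2_pointEquiv_toPoint' h (mul_notMem hcyc hk)]
      ring
    rw [Finset.prod_congr rfl this, Finset.prod_mul_distrib, Finset.prod_const, Nat.card_Ico]
  rw [veluCurve_Δ h hcyc hp, hprod, Δ_eq_of_curve_eq h, mul_pow, ← hdq]
  have hp1 : p = (p - 1) + 1 := by have := hp.one_le; omega
  have e : ((C.u : ℂ) ^ 12) ^ p = (C.u : ℂ) ^ 12 * ((C.u : ℂ) ^ 12) ^ (p - 1) := by
    conv_lhs => rw [hp1, pow_succ]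
    ring
  rw [e]
  ring

end Main

end Fermat.Agent.S12P.VeluC51
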